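import Mathlib

set_option autoImplicit false

noncomputable section

namespace Fermat.Agent.S20.H428

open Finset

variable {K R : Type*} [Field K] [CommRing R] [Algebra K R]

/-- Abstract data of a graded `K`-algebra `A = ⨁ A_w` generated by `e4` (weight 4) and `e6`
(weight 6) acting on a graded module `M = ⨁ M_w`, all sitting inside one commutative
`K`-algebra `R`, such that `(e4, e6)` is a regular sequence on `M`. -/
structure GrData (K R : Type*) [Field K] [CommRing R] [Algebra K R] where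
  A : ℤ → Submodule K R
  M : ℤ → Submodule K R
  e4 : R
  e6 : R
  A_neg : ∀ w : ℤ, w < 0 → ∀ a ∈ A w, a = 0
  A_zero : ∀ a ∈ A 0, ∃ c : K, a = algebraMap K R c
  A_const : ∀ c : K, algebraMap K R c ∈ A 0
  A_decomp : ∀ w : ℤ, w ≠ 0 → ∀ a ∈ A w,
    ∃ b ∈ A (w - 4), ∃ b' ∈ A (w - 6), a = e4 * b + e6 * b'
  e4_mem : e4 ∈ A 4
  e6_mem : e6 ∈ A 6
  A_mul : ∀ w k : ℤ, ∀ a ∈ A w, ∀ b ∈ A k, a * b ∈ A (w + k)
  AM_mul : ∀ w k : ℤ, ∀ a ∈ A w, ∀ f ∈ M k, a * f ∈ M (w + k)
  M_neg : ∀ w : ℤ, w < 0 → ∀ f ∈ M w, f = 0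
  regular : ∀ w : ℤ, ∀ x ∈ M (w - 4), ∀ y ∈ M (w - 6), e4 * x = e6 * y →
    ∃ z ∈ M (w - 10), x = e6 * z ∧ y = e4 * z
  finite : ∀ w : ℤ, Module.Finite K (M w)

/-- A choice of homogeneous generators: in each weight `n` a family lifting a basis of
`M_n / (e4 M_{n-4} + e6 M_{n-6})`. -/
structure GenData (G : GrData K R) where
  d : ℕ → ℕ
  gen : (n : ℕ) → Fin (d n) → R
  gen_mem : ∀ (n : ℕ) (i : Fin (d n)), gen n i ∈ G.M (n : ℤ)
  gen_span : ∀ (n : ℕ), ∀ f ∈ G.M n, ∃ c : Fin (d n) → K, ∃ x ∈ G.M ((n : ℤ) - 4),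
    ∃ y ∈ G.M ((n : ℤ) - 6), f = ∑ i, c i • gen n i + G.e4 * x + G.e6 * y
  gen_indep : ∀ (n : ℕ) (c : Fin (d n) → K), ∀ x ∈ G.M ((n : ℤ) - 4),
    ∀ y ∈ G.M ((n : ℤ) - 6), ∑ i, c i • gen n i + G.e4 * x + G.e6 * y = 0 → c = 0
  d_eq_zero : ∀ n : ℕ, (∀ f ∈ G.M n, f = 0) → d n = 0

namespace GrData

variable (G : GrData K R)

lemma e4_mul_mem {w : ℤ} {f : R} (hf : f ∈ G.M (w - 4)) : G.e4 * f ∈ G.M w := by
  have := G.AM_mul 4 (w - 4) _ G.e4_mem _ hf
  rwa [show (4 : ℤ) + (w - 4) = w by ring] at this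

lemma e6_mul_mem {w : ℤ} {f : R} (hf : f ∈ G.M (w - 6)) : G.e6 * f ∈ G.M w := by
  have := G.AM_mul 6 (w - 6) _ G.e6_mem _ hf
  rwa [show (6 : ℤ) + (w - 6) = w by ring] at this

/-- The submodule `e4 M_{w-4} + e6 M_{w-6}` of `M_w`, as a submodule of `↥(M w)`. -/
def Isub (w : ℤ) : Submodule K (G.M w) where
  carrier := {f | ∃ x ∈ G.M (w - 4), ∃ y ∈ G.M (w - 6), (f : R) = G.e4 * x + G.e6 * y}
  add_mem' := by
    rintro f g ⟨x, hx, y, hy, hf⟩ ⟨x', hx', y', hy', hg⟩
    exact ⟨x + x', add_mem hx hx', y + y', add_mem hy hy', by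
      rw [Submodule.coe_add, hf, hg]; ring⟩
  zero_mem' := ⟨0, zero_mem _, 0, zero_mem _, by simp⟩
  smul_mem' := by
    rintro c f ⟨x, hx, y, hy, hf⟩
    exact ⟨c • x, Submodule.smul_mem _ c hx, c • y, Submodule.smul_mem _ c hy, by
      rw [Submodule.coe_smul, hf, smul_add, mul_smul_comm, mul_smul_comm]⟩

lemma exists_genData : Nonempty (GenData G) := by
  classical
  have hfin : ∀ n : ℕ, Module.Finite K (G.M n ⧸ G.Isub n) := fun n => by
    have := G.finite n
    infer_instance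
  -- bases of the quotients
  let B : (n : ℕ) → Module.Basis (Fin (Module.finrank K (G.M n ⧸ G.Isub n))) K
      (G.M n ⧸ G.Isub n) := fun n => by
    haveI := hfin n
    exact Module.finBasis K _
  have hlift : ∀ (n : ℕ) (i : Fin (Module.finrank K (G.M n ⧸ G.Isub n))),
      ∃ f : G.M n, (G.Isub n).mkQ f = B n i :=
    fun n i => Submodule.mkQ_surjective _ _
  choose g hg using hlift
  refine ⟨⟨fun n => Module.finrank K (G.M n ⧸ G.Isub n), fun n i => (g n i : R),
    fun n i => (g n i).2, ?_, ?_, ?_⟩⟩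
  · intro n f hf
    set c := (B n).repr ((G.Isub n).mkQ (⟨f, hf⟩ : G.M n)) with hc
    have h1 : (G.Isub n).mkQ (⟨f, hf⟩ : G.M n) = (G.Isub n).mkQ (∑ i, c i • g n i) := by
      rw [map_sum]
      simp only [map_smul, hg]
      rw [hc]
      exact ((B n).sum_repr _).symm
    rw [Submodule.mkQ_apply, Submodule.mkQ_apply, Submodule.Quotient.eq] at h1
    obtain ⟨x, hx, y, hy, hxy⟩ := h1
    refine ⟨fun i => c i, x, hx, y, hy, ?_⟩
    simp only [Submodule.coe_sub, Submodule.coe_sum, Submodule.coe_smul] at hxy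
    rw [add_assoc, ← hxy]
    ring
  · intro n c x hx y hy h
    have hmem : (∑ i, c i • g n i : G.M n) ∈ G.Isub n := by
      refine ⟨-x, neg_mem hx, -y, neg_mem hy, ?_⟩
      simp only [Submodule.coe_sum, Submodule.coe_smul]
      linear_combination h
    have h0 : (G.Isub n).mkQ (∑ i, c i • g n i) = 0 := by
      rw [Submodule.mkQ_apply]
      exact (Submodule.Quotient.mk_eq_zero _).mpr hmem
    rw [map_sum] at h0
    simp only [map_smul, hg] at h0
    have := Fintype.linearIndependent_iff.mp (B n).linearIndependent c h0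
    exact funext this
  · intro n h
    have : Subsingleton (G.M n) := ⟨fun a b => Subtype.ext ((h a a.2).trans (h b b.2).symm)⟩
    have : Subsingleton (G.M n ⧸ G.Isub n) := by
      constructor
      intro a b
      obtain ⟨a', rfl⟩ := Submodule.Quotient.mk_surjective _ a
      obtain ⟨b', rfl⟩ := Submodule.Quotient.mk_surjective _ b
      rw [Subsingleton.elim a' b']
    exact Module.finrank_zero_of_subsingleton

end GrData


namespace GenData

variable {G : GrData K R} (D : GenData G)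

/-- The sum `∑_{n ≤ W} ∑_i a n i * gen n i`. -/
def S (W : ℕ) (a : (n : ℕ) → Fin (D.d n) → R) : R :=
  ∑ n ∈ range (W + 1), ∑ i, a n i * D.gen n i

/-- `a` is a family of coefficients of total weight `w`. -/
def IsCoeff (w : ℤ) (a : (n : ℕ) → Fin (D.d n) → R) : Prop :=
  ∀ (n : ℕ) (i : Fin (D.d n)), a n i ∈ G.A (w - (n : ℤ))

lemma S_zero (W : ℕ) : D.S W (fun _ _ => 0) = 0 := by
  simp [S]

lemma S_add (W : ℕ) (a b : (n : ℕ) → Fin (D.d n) → R) :
    D.S W (fun n i => a n i + b n i) = D.S W a + D.S W b := by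
  simp only [S, add_mul, sum_add_distrib]

lemma S_sub (W : ℕ) (a b : (n : ℕ) → Fin (D.d n) → R) :
    D.S W (fun n i => a n i - b n i) = D.S W a - D.S W b := by
  simp only [S, sub_mul, sum_sub_distrib]

lemma S_mul_left (W : ℕ) (r : R) (a : (n : ℕ) → Fin (D.d n) → R) :
    D.S W (fun n i => r * a n i) = r * D.S W a := by
  simp only [S, mul_sum, mul_assoc]

lemma S_mem {w : ℤ} {a : (n : ℕ) → Fin (D.d n) → R} (ha : D.IsCoeff w a) (W : ℕ) :
    D.S W a ∈ G.M w := by
  refine Submodule.sum_mem _ fun n _ => Submodule.sum_mem _ fun i _ => ?_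
  have := G.AM_mul (w - n) n _ (ha n i) _ (D.gen_mem n i)
  rwa [sub_add_cancel] at this

lemma IsCoeff.zero (w : ℤ) : D.IsCoeff w (fun _ _ => 0) := fun _ _ => zero_mem _

lemma IsCoeff.add {w : ℤ} {a b : (n : ℕ) → Fin (D.d n) → R} (ha : D.IsCoeff w a)
    (hb : D.IsCoeff w b) : D.IsCoeff w (fun n i => a n i + b n i) :=
  fun n i => add_mem (ha n i) (hb n i)

lemma IsCoeff.sub {w : ℤ} {a b : (n : ℕ) → Fin (D.d n) → R} (ha : D.IsCoeff w a)
    (hb : D.IsCoeff w b) : D.IsCoeff w (fun n i => a n i - b n i) :=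
  fun n i => sub_mem (ha n i) (hb n i)

lemma IsCoeff.e4_mul {w w' : ℤ} (h : w' + 4 = w) {a : (n : ℕ) → Fin (D.d n) → R}
    (ha : D.IsCoeff w' a) : D.IsCoeff w (fun n i => G.e4 * a n i) := by
  intro n i
  have := G.A_mul 4 (w' - n) _ G.e4_mem _ (ha n i)
  rwa [show (4 : ℤ) + (w' - n) = w - n by omega] at this

lemma IsCoeff.e6_mul {w w' : ℤ} (h : w' + 6 = w) {a : (n : ℕ) → Fin (D.d n) → R}
    (ha : D.IsCoeff w' a) : D.IsCoeff w (fun n i => G.e6 * a n i) := by
  intro n i
  have := G.A_mul 6 (w' - n) _ G.e6_mem _ (ha n i)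
  rwa [show (6 : ℤ) + (w' - n) = w - n by omega] at this

/-- The coefficient family concentrated in weight `m` with constant coefficients `c`. -/
def single (m : ℕ) (c : Fin (D.d m) → K) : (n : ℕ) → Fin (D.d n) → R :=
  fun n i => if h : n = m then algebraMap K R (c (Fin.cast (congrArg D.d h) i)) else 0

lemma isCoeff_single (m : ℕ) (c : Fin (D.d m) → K) : D.IsCoeff m (D.single m c) := by
  intro n i
  unfold single
  split_ifs with h
  · subst h
    rw [sub_self]
    exact G.A_const _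
  · exact zero_mem _

lemma S_single (m : ℕ) (c : Fin (D.d m) → K) (W : ℕ) (hW : m ≤ W) :
    D.S W (D.single m c) = ∑ i, c i • D.gen m i := by
  unfold S
  rw [sum_eq_single m]
  · refine sum_congr rfl fun i _ => ?_
    simp [single, Algebra.smul_def]
  · intro n _ hn
    refine sum_eq_zero fun i _ => ?_
    simp [single, hn]
  · intro h
    exact absurd (mem_range.mpr (by omega)) h

theorem span_aux (N : ℕ) : ∀ w : ℤ, w < N → ∀ f ∈ G.M w,
    ∃ a, D.IsCoeff w a ∧ ∀ W : ℕ, w ≤ W → f = D.S W a := by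
  induction N with
  | zero =>
    intro w hw f hf
    refine ⟨fun _ _ => 0, IsCoeff.zero D w, fun W _ => ?_⟩
    rw [S_zero]
    exact G.M_neg w (by simpa using hw) f hf
  | succ N ih =>
    intro w hw f hf
    rcases lt_or_ge w 0 with hneg | hnn
    · refine ⟨fun _ _ => 0, IsCoeff.zero D w, fun W _ => ?_⟩
      rw [S_zero]
      exact G.M_neg w hneg f hf
    lift w to ℕ using hnn with m
    obtain ⟨c, x, hx, y, hy, hfxy⟩ := D.gen_span m f hf
    obtain ⟨a', ha', hxa⟩ := ih ((m : ℤ) - 4) (by push_cast at hw; omega) x hx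
    obtain ⟨a'', ha'', hya⟩ := ih ((m : ℤ) - 6) (by push_cast at hw; omega) y hy
    refine ⟨fun n i => D.single m c n i + (G.e4 * a' n i + G.e6 * a'' n i),
      IsCoeff.add D (D.isCoeff_single m c)
        (IsCoeff.add D (IsCoeff.e4_mul D (by ring) ha') (IsCoeff.e6_mul D (by ring) ha'')),
      fun W hW => ?_⟩
    have hW' : m ≤ W := by exact_mod_cast hW
    rw [S_add, S_add, S_mul_left, S_mul_left, S_single D m c W hW',
      ← hxa W (by omega), ← hya W (by omega), hfxy]
    ring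

/-- **Spanning**: every element of `M_w` is a combination of the generators with coefficients
in `A`. -/
theorem span (w : ℤ) (f : R) (hf : f ∈ G.M w) :
    ∃ a, D.IsCoeff w a ∧ ∀ W : ℕ, w ≤ W → f = D.S W a :=
  D.span_aux (w.toNat + 1) w (by omega) f hf

theorem indep_aux (N : ℕ) : ∀ w : ℤ, w < N → ∀ a, D.IsCoeff w a → ∀ W : ℕ, w ≤ W →
    D.S W a = 0 → ∀ n i, a n i = 0 := by
  induction N with
  | zero =>
    intro w hw a ha W _ _ n i
    exact G.A_neg _ (by push_cast at hw; omega) _ (ha n i)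
  | succ N ih =>
    intro w hw a ha W hW hS
    rcases lt_or_ge w 0 with hneg | hnn
    · intro n i
      exact G.A_neg _ (by omega) _ (ha n i)
    lift w to ℕ using hnn with m
    have hmW : m ≤ W := by exact_mod_cast hW
    -- constants in weight `m`
    have hc : ∀ i : Fin (D.d m), ∃ c : K, a m i = algebraMap K R c := fun i => by
      have := ha m i
      rw [sub_self] at this
      exact G.A_zero _ this
    choose c hc using hc
    -- decomposition of the other coefficients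
    have hdec : ∀ (n : ℕ) (i : Fin (D.d n)), ∃ b b' : R, b ∈ G.A ((m : ℤ) - 4 - n) ∧
        b' ∈ G.A ((m : ℤ) - 6 - n) ∧ (n ≠ m → a n i = G.e4 * b + G.e6 * b') := by
      intro n i
      by_cases hn : n = m
      · exact ⟨0, 0, zero_mem _, zero_mem _, fun h => absurd hn h⟩
      · obtain ⟨b, hb, b', hb', hab⟩ := G.A_decomp ((m : ℤ) - n)
          (by intro h; apply hn; omega) _ (ha n i)
        refine ⟨b, b', ?_, ?_, fun _ => hab⟩
        · rwa [show (m : ℤ) - 4 - n = (m : ℤ) - n - 4 by ring]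
        · rwa [show (m : ℤ) - 6 - n = (m : ℤ) - n - 6 by ring]
    choose b b' hb hb' hab using hdec
    have hbC : D.IsCoeff ((m : ℤ) - 4) b := hb
    have hb'C : D.IsCoeff ((m : ℤ) - 6) b' := hb'
    -- the key identity
    have hkey : D.S W a = ∑ i, c i • D.gen m i + G.e4 * D.S W b + G.e6 * D.S W b' := by
      have hterm : ∀ n : ℕ, ∑ i, a n i * D.gen n i =
          (∑ i, D.single m c n i * D.gen n i) +
            (G.e4 * ∑ i, b n i * D.gen n i + G.e6 * ∑ i, b' n i * D.gen n i) := by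
        intro n
        by_cases hn : n = m
        · subst hn
          have hb0 : ∀ i, b n i = 0 := fun i => G.A_neg _ (by omega) _ (hb n i)
          have hb'0 : ∀ i, b' n i = 0 := fun i => G.A_neg _ (by omega) _ (hb' n i)
          simp only [hb0, hb'0, zero_mul, sum_const_zero, mul_zero, add_zero]
          refine sum_congr rfl fun i _ => ?_
          simp [single, hc]
        · have h0 : ∑ i, D.single m c n i * D.gen n i = 0 :=
            sum_eq_zero fun i _ => by simp [single, hn]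
          rw [h0, zero_add, mul_sum, mul_sum, ← sum_add_distrib]
          refine sum_congr rfl fun i _ => ?_
          rw [hab n i hn]
          ring
      have : D.S W a = D.S W (D.single m c) + (G.e4 * D.S W b + G.e6 * D.S W b') := by
        simp only [S, mul_sum, ← sum_add_distrib]
        refine sum_congr rfl fun n _ => ?_
        rw [hterm n]
        simp only [mul_sum, sum_add_distrib]
      rw [this, S_single D m c W hmW]
      ring
    rw [hS] at hkey
    have hX := D.S_mem hbC W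
    have hY := D.S_mem hb'C W
    have hc0 : c = 0 := D.gen_indep m c _ hX _ hY hkey.symm
    have hXY : G.e4 * D.S W b = G.e6 * (-D.S W b') := by
      have := hkey
      rw [hc0] at this
      simp only [Pi.zero_apply, zero_smul, sum_const_zero, zero_add] at this
      linear_combination -this
    obtain ⟨Z, hZ, hXZ, hYZ⟩ := G.regular m _ hX _ (neg_mem hY) hXY
    obtain ⟨c', hc', hZc⟩ := D.span ((m : ℤ) - 10) Z hZ
    have hZW := hZc W (by omega)
    -- `b = e6 * c'`
    have h1 : ∀ n i, b n i - G.e6 * c' n i = 0 := by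
      refine ih ((m : ℤ) - 4) (by push_cast at hw; omega) _
        (IsCoeff.sub D hbC (IsCoeff.e6_mul D (by ring) hc')) W (by omega) ?_
      rw [S_sub, S_mul_left, ← hZW, hXZ, sub_self]
    have h2 : ∀ n i, b' n i + G.e4 * c' n i = 0 := by
      refine ih ((m : ℤ) - 6) (by push_cast at hw; omega) _
        (IsCoeff.add D hb'C (IsCoeff.e4_mul D (by ring) hc')) W (by omega) ?_
      rw [S_add, S_mul_left, ← hZW]
      linear_combination -hYZ
    intro n i
    by_cases hn : n = m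
    · subst hn
      rw [hc i, hc0]
      simp
    · rw [hab n i hn]
      linear_combination G.e4 * h1 n i + G.e6 * h2 n i

/-- **Independence**: a combination of the generators with coefficients in `A` vanishes only
if all coefficients vanish. -/
theorem indep (w : ℤ) (a : (n : ℕ) → Fin (D.d n) → R) (ha : D.IsCoeff w a) (W : ℕ)
    (hW : w ≤ W) (hS : D.S W a = 0) : ∀ n i, a n i = 0 :=
  D.indep_aux (w.toNat + 1) w (by omega) a ha W hW hS


/-! ### Finiteness of the set of generators -/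

lemma S_eq_sum_sigma (W₀ W : ℕ) (hW : W₀ ≤ W) (a : (n : ℕ) → Fin (D.d n) → R)
    (hzero : ∀ n, W₀ < n → ∀ i, a n i * D.gen n i = 0) :
    D.S W a = ∑ j : (Σ n : Fin (W₀ + 1), Fin (D.d n)), a j.1 j.2 * D.gen j.1 j.2 := by
  unfold S
  rw [Fintype.sum_sigma, Fin.sum_univ_eq_sum_range (fun n => ∑ i, a n i * D.gen n i) (W₀ + 1)]
  symm
  refine sum_subset (range_subset_range.mpr (by omega)) fun n _ hn => ?_
  refine sum_eq_zero fun i _ => hzero n ?_ i
  simp only [mem_range, not_lt] at hn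
  omega

/-- Extension by zero of a coefficient family given on the generators of weight `≤ W₀`. -/
def extend (W₀ : ℕ) (a : (Σ n : Fin (W₀ + 1), Fin (D.d n)) → R) :
    (n : ℕ) → Fin (D.d n) → R :=
  fun n i => if h : n < W₀ + 1 then a ⟨⟨n, h⟩, i⟩ else 0

lemma extend_apply (W₀ : ℕ) (a : (Σ n : Fin (W₀ + 1), Fin (D.d n)) → R)
    (j : Σ n : Fin (W₀ + 1), Fin (D.d n)) : D.extend W₀ a j.1 j.2 = a j := by
  obtain ⟨⟨n, hn⟩, i⟩ := j
  simp [extend, hn]

lemma extend_of_lt (W₀ : ℕ) (a : (Σ n : Fin (W₀ + 1), Fin (D.d n)) → R) (n : ℕ)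
    (hn : W₀ < n) (i : Fin (D.d n)) : D.extend W₀ a n i = 0 := by
  simp [extend, show ¬ n < W₀ + 1 by omega]

lemma isCoeff_extend (W₀ : ℕ) (w : ℤ) (a : (Σ n : Fin (W₀ + 1), Fin (D.d n)) → R)
    (ha : ∀ j, a j ∈ G.A (w - ((j.1 : ℕ) : ℤ))) : D.IsCoeff w (D.extend W₀ a) := by
  intro n i
  unfold extend
  split_ifs with h
  · exact ha ⟨⟨n, h⟩, i⟩
  · exact zero_mem _

lemma S_extend (W₀ W : ℕ) (hW : W₀ ≤ W) (a : (Σ n : Fin (W₀ + 1), Fin (D.d n)) → R) :
    D.S W (D.extend W₀ a) = ∑ j, a j * D.gen j.1 j.2 := by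
  rw [D.S_eq_sum_sigma W₀ W hW _ (fun n hn i => by rw [D.extend_of_lt W₀ a n hn i, zero_mul])]
  exact Fintype.sum_congr _ _ fun j => by rw [D.extend_apply]

/-- Independence for the truncated family of generators of weight `≤ W₀`. -/
theorem indep_trunc (W₀ : ℕ) (w : ℤ) (a : (Σ n : Fin (W₀ + 1), Fin (D.d n)) → R)
    (ha : ∀ j, a j ∈ G.A (w - ((j.1 : ℕ) : ℤ))) (h : ∑ j, a j * D.gen j.1 j.2 = 0) :
    ∀ j, a j = 0 := by
  intro j
  have h1 := D.indep w (D.extend W₀ a) (D.isCoeff_extend W₀ w a ha) (max w.toNat W₀)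
    (by omega) (by rw [D.S_extend W₀ _ (le_max_right _ _), h]) j.1 j.2
  rwa [D.extend_apply] at h1

/-- The dimension count: if `A_m` contains `t` linearly independent elements whenever `m` is
even and `m ≥ 12 t`, odd weights of `M` vanish, then `t * #{generators of weight ≤ W}` is at
most `dim M_{2W + 12t}`. -/
theorem card_mul_le_finrank
    (hodd : ∀ n : ℕ, Odd n → ∀ f ∈ G.M n, f = 0)
    (hA : ∀ (t : ℕ) (m : ℤ), Even m → 12 * (t : ℤ) ≤ m →
      ∃ u : Fin t → R, (∀ s, u s ∈ G.A m) ∧ LinearIndependent K u)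
    (W t : ℕ) :
    (∑ n ∈ range (W + 1), D.d n) * t ≤ Module.finrank K (G.M ((2 * W + 12 * t : ℕ) : ℤ)) := by
  classical
  set w : ℕ := 2 * W + 12 * t with hw
  -- independent families in the `A (w - n)`
  have hu : ∀ n : ℕ, ∃ u : Fin t → R, (∀ s, u s ∈ G.A ((w : ℤ) - n)) ∧
      (Even n → n ≤ W → LinearIndependent K u) := by
    intro n
    by_cases hn : Even n ∧ n ≤ W
    · obtain ⟨u, hu1, hu2⟩ := hA t ((w : ℤ) - n) (by
        have h1 : Even (w : ℤ) := by
          rw [hw]; push_cast; exact Even.add (even_two_mul _) ⟨6 * t, by ring⟩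
        exact h1.sub ((Int.even_coe_nat n).mpr hn.1)) (by rw [hw]; push_cast; omega)
      exact ⟨u, hu1, fun _ _ => hu2⟩
    · exact ⟨fun _ => 0, fun _ => zero_mem _, fun h1 h2 => absurd ⟨h1, h2⟩ hn⟩
  choose u hu1 hu2 using hu
  have hmem : ∀ x : (Σ n : Fin (W + 1), Fin (D.d n)) × Fin t,
      u x.1.1 x.2 * D.gen x.1.1 x.1.2 ∈ G.M (w : ℤ) := by
    intro x
    have := G.AM_mul _ _ _ (hu1 x.1.1 x.2) _ (D.gen_mem x.1.1 x.1.2)
    rwa [sub_add_cancel] at this
  let v : (Σ n : Fin (W + 1), Fin (D.d n)) × Fin t → G.M (w : ℤ) := fun x => ⟨_, hmem x⟩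
  have hv : LinearIndependent K v := by
    rw [Fintype.linearIndependent_iff]
    intro g hg x
    have hg' : ∑ x, g x • (u x.1.1 x.2 * D.gen x.1.1 x.1.2) = 0 := by
      have := congrArg (Subtype.val) hg
      simpa [v] using this
    rw [Fintype.sum_prod_type] at hg'
    have hind := D.indep_trunc W (w : ℤ) (fun j => ∑ s, g (j, s) • u j.1 s)
      (fun j => Submodule.sum_mem _ fun s _ => Submodule.smul_mem _ _ (hu1 j.1 s)) (by
        rw [← hg']
        refine Fintype.sum_congr _ _ fun j => ?_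
        rw [sum_mul]
        refine sum_congr rfl fun s _ => ?_
        rw [smul_mul_assoc])
    obtain ⟨j, s⟩ := x
    have hj := hind j
    have hdn : D.d j.1 ≠ 0 := fun h0 => by
      have := j.2
      rw [h0] at this
      exact this.elim0
    have heven : Even (j.1 : ℕ) := by
      by_contra hne
      exact hdn (D.d_eq_zero _ (hodd _ (Nat.not_even_iff_odd.mp hne)))
    have hli := hu2 j.1 heven (by have := j.1.2; omega)
    exact Fintype.linearIndependent_iff.mp hli (fun s => g (j, s)) hj s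
  have hfin := G.finite (w : ℤ)
  have hcard := hv.fintype_card_le_finrank
  rw [Fintype.card_prod, Fintype.card_sigma, Fintype.card_fin] at hcard
  simp only [Fintype.card_fin] at hcard
  rw [Fin.sum_univ_eq_sum_range (fun n => D.d n) (W + 1)] at hcard
  exact hcard


theorem sum_d_le
    (hodd : ∀ n : ℕ, Odd n → ∀ f ∈ G.M n, f = 0)
    (hA : ∀ (t : ℕ) (m : ℤ), Even m → 12 * (t : ℤ) ≤ m →
      ∃ u : Fin t → R, (∀ s, u s ∈ G.A m) ∧ LinearIndependent K u)
    (C : ℕ) (hC : ∀ w : ℕ, Module.finrank K (G.M (w : ℤ)) ≤ C * w + 1) (W : ℕ) :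
    ∑ n ∈ range (W + 1), D.d n ≤ 12 * C := by
  set t := 2 * C * W + 2 with ht
  have h := D.card_mul_le_finrank hodd hA W t
  have h2 := hC (2 * W + 12 * t)
  by_contra hlt
  rw [not_le] at hlt
  have h3 : (12 * C + 1) * t ≤ (∑ n ∈ range (W + 1), D.d n) * t :=
    Nat.mul_le_mul_right _ hlt
  have h4 : (12 * C + 1) * t ≤ C * (2 * W + 12 * t) + 1 := h3.trans (h.trans h2)
  rw [ht] at h4
  nlinarith

theorem exists_bound_weight
    (hodd : ∀ n : ℕ, Odd n → ∀ f ∈ G.M n, f = 0)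
    (hA : ∀ (t : ℕ) (m : ℤ), Even m → 12 * (t : ℤ) ≤ m →
      ∃ u : Fin t → R, (∀ s, u s ∈ G.A m) ∧ LinearIndependent K u)
    (C : ℕ) (hC : ∀ w : ℕ, Module.finrank K (G.M (w : ℤ)) ≤ C * w + 1) :
    ∃ W₀ : ℕ, ∀ n, W₀ < n → D.d n = 0 := by
  by_contra hcon
  simp only [not_exists, not_forall] at hcon
  have key : ∀ k : ℕ, ∃ W, k ≤ ∑ n ∈ range (W + 1), D.d n := by
    intro k
    induction k with
    | zero => exact ⟨0, Nat.zero_le _⟩
    | succ k ih =>
      obtain ⟨W, hW⟩ := ih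
      obtain ⟨n, hn, hdn⟩ := hcon W
      refine ⟨n, ?_⟩
      have hsub : range (W + 1) ⊆ range n := range_subset_range.mpr (by omega)
      have h1 : ∑ m ∈ range (W + 1), D.d m ≤ ∑ m ∈ range n, D.d m :=
        sum_le_sum_of_subset hsub
      rw [sum_range_succ]
      have : 1 ≤ D.d n := Nat.one_le_iff_ne_zero.mpr hdn
      omega
  obtain ⟨W, hW⟩ := key (12 * C + 1)
  have := D.sum_d_le hodd hA C hC W
  omega

end GenData

/-- **Abstract freeness theorem**: existence of a finite homogeneous basis. -/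
theorem GrData.exists_finite_homBasis (G : GrData K R)
    (hodd : ∀ n : ℕ, Odd n → ∀ f ∈ G.M n, f = 0)
    (hA : ∀ (t : ℕ) (m : ℤ), Even m → 12 * (t : ℤ) ≤ m →
      ∃ u : Fin t → R, (∀ s, u s ∈ G.A m) ∧ LinearIndependent K u)
    (C : ℕ) (hC : ∀ w : ℕ, Module.finrank K (G.M (w : ℤ)) ≤ C * w + 1) :
    ∃ (ι : Type) (_ : Fintype ι) (k : ι → ℤ) (F : ι → R),
      (∀ j, F j ∈ G.M (k j)) ∧
      (∀ (w : ℤ) (f : R), f ∈ G.M w →
        ∃ a : ι → R, (∀ j, a j ∈ G.A (w - k j)) ∧ f = ∑ j, a j * F j) ∧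
      (∀ (w : ℤ) (a : ι → R), (∀ j, a j ∈ G.A (w - k j)) → ∑ j, a j * F j = 0 →
        ∀ j, a j = 0) := by
  obtain ⟨D⟩ := G.exists_genData
  obtain ⟨W₀, hW₀⟩ := D.exists_bound_weight hodd hA C hC
  refine ⟨Σ n : Fin (W₀ + 1), Fin (D.d n), inferInstance, fun j => ((j.1 : ℕ) : ℤ),
    fun j => D.gen j.1 j.2, fun j => D.gen_mem j.1 j.2, ?_, ?_⟩
  · intro w f hf
    obtain ⟨a, ha, hfa⟩ := D.span w f hf
    refine ⟨fun j => a j.1 j.2, fun j => ha j.1 j.2, ?_⟩
    rw [hfa (max w.toNat W₀) (by omega)]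
    refine D.S_eq_sum_sigma W₀ _ (le_max_right _ _) a fun n hn i => ?_
    have h0 := hW₀ n hn
    have hi : (i : ℕ) < D.d n := i.2
    omega
  · intro w a ha h
    exact D.indep_trunc W₀ w a ha h

end Fermat.Agent.S20.H428
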