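import Fermat.Agent.S20.Bridge
import Fermat.Agent.S20.H428.GradedFree
import Fermat.Prelude.Thm_ModularForm_sturm_bound_Gamma0
import Fermat.Prelude.Thm_CongruenceSubgroup_one_mem_strictPeriods_Gamma0

set_option autoImplicit false

open UpperHalfPlane ModularForm CongruenceSubgroup Matrix.SpecialLinearGroup EisensteinSeries
open Filter Topology
open scoped MatrixGroups ModularForm Manifold

noncomputable section

namespace Fermat.Agent.S20.H428

/-! ### Closure properties of `IsMF` -/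

lemma IsMF.congr_weight {Γ : Subgroup SL(2, ℤ)} {k k' : ℤ} {f : ℍ → ℂ} (hf : IsMF Γ k f)
    (h : k = k') : IsMF Γ k' f := h ▸ hf

lemma isMF_zero (Γ : Subgroup SL(2, ℤ)) (k : ℤ) : IsMF Γ k 0 := by
  refine ⟨mdifferentiable_const, fun γ _ => SlashAction.zero_slash _ _, fun γ => ?_⟩
  rw [SlashAction.zero_slash]
  exact (boundedAtImInftySubalgebra ℂ).zero_mem

lemma IsMF.add {Γ : Subgroup SL(2, ℤ)} {k : ℤ} {f g : ℍ → ℂ} (hf : IsMF Γ k f)
    (hg : IsMF Γ k g) : IsMF Γ k (f + g) := by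
  obtain ⟨hf1, hf2, hf3⟩ := hf
  obtain ⟨hg1, hg2, hg3⟩ := hg
  refine ⟨hf1.add hg1, fun γ hγ => ?_, fun γ => ?_⟩
  · rw [SlashAction.add_slash, hf2 γ hγ, hg2 γ hγ]
  · rw [SlashAction.add_slash]
    exact (boundedAtImInftySubalgebra ℂ).add_mem (hf3 γ) (hg3 γ)

lemma IsMF.smul {Γ : Subgroup SL(2, ℤ)} {k : ℤ} {f : ℍ → ℂ} (c : ℂ) (hf : IsMF Γ k f) :
    IsMF Γ k (c • f) := by
  obtain ⟨hf1, hf2, hf3⟩ := hf
  refine ⟨hf1.const_smul c, fun γ hγ => ?_, fun γ => ?_⟩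
  · rw [ModularForm.SL_smul_slash, hf2 γ hγ]
  · rw [ModularForm.SL_smul_slash]
    exact (boundedAtImInftySubalgebra ℂ).smul_mem (hf3 γ) c

/-- Modular forms of weight `k` for `Γ`, as a submodule of `ℍ → ℂ`. -/
def MFsub (Γ : Subgroup SL(2, ℤ)) (k : ℤ) : Submodule ℂ (ℍ → ℂ) where
  carrier := {f | IsMF Γ k f}
  add_mem' := fun hf hg => IsMF.add hf hg
  zero_mem' := isMF_zero Γ k
  smul_mem' := fun c _ hf => IsMF.smul c hf

@[simp] lemma mem_MFsub {Γ : Subgroup SL(2, ℤ)} {k : ℤ} {f : ℍ → ℂ} :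
    f ∈ MFsub Γ k ↔ IsMF Γ k f := Iff.rfl

lemma IsMF.mul_top {Γ : Subgroup SL(2, ℤ)} {w k : ℤ} {a f : ℍ → ℂ} (ha : IsMF ⊤ w a)
    (hf : IsMF Γ k f) : IsMF Γ (w + k) (a * f) := by
  obtain ⟨ha1, ha2, ha3⟩ := ha
  obtain ⟨hf1, hf2, hf3⟩ := hf
  refine ⟨ha1.mul hf1, fun γ hγ => ?_, fun γ => ?_⟩
  · rw [mul_slash_SL2, ha2 γ (Subgroup.mem_top γ), hf2 γ hγ]
  · rw [mul_slash_SL2]
    exact (ha3 γ).mul (hf3 γ)

lemma IsMF.of_top {Γ : Subgroup SL(2, ℤ)} {k : ℤ} {a : ℍ → ℂ} (ha : IsMF ⊤ k a) : IsMF Γ k a :=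
  ⟨ha.1, fun γ _ => ha.2.1 γ (Subgroup.mem_top γ), ha.2.2⟩

lemma isMF_coe_levelOne {k : ℤ} (g : ModularForm 𝒮ℒ k) : IsMF ⊤ k ⇑g :=
  (isMF_top_iff k _).mpr ⟨g, rfl⟩

lemma isMF_E4 : IsMF ⊤ 4 ⇑E₄ := isMF_coe_levelOne E₄

lemma isMF_E6 : IsMF ⊤ 6 ⇑E₆ := isMF_coe_levelOne E₆

lemma isMF_one : IsMF ⊤ 0 (1 : ℍ → ℂ) := isMF_coe_levelOne (1 : ModularForm 𝒮ℒ 0)

lemma isMF_const (c : ℂ) : IsMF ⊤ 0 (fun _ => c : ℍ → ℂ) := by
  have h := IsMF.smul c isMF_one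
  have : (c • (1 : ℍ → ℂ)) = fun _ => c := by
    ext z; simp
  rwa [this] at h

/-! ### `E₄` and `E₆` have no common zero; `E₄ → 1` at `i∞` -/

lemma E4_cube_sub_E6_sq_ne_zero (z : ℍ) : E₄ z ^ 3 - E₆ z ^ 2 ≠ 0 := by
  have h := discriminant_eq_E₄_cube_sub_E₆_sq z
  have hne := discriminant_ne_zero z
  intro h0
  rw [h0, zero_div] at h
  exact hne h

lemma tendsto_levelOne_atImInfty {k : ℤ} (g : ModularForm 𝒮ℒ k) :
    Tendsto (⇑g) atImInfty (𝓝 ((qExpansion 1 g).coeff 0)) := by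
  have hanal := ModularFormClass.analyticAt_cuspFunction_zero g one_pos one_mem_strictPeriods_SL
  have hper := SlashInvariantFormClass.periodic_comp_ofComplex g one_mem_strictPeriods_SL
  rw [qExpansion_coeff_zero one_pos hanal hper, ← cuspFunction_apply_zero one_pos hanal hper]
  exact (hanal.continuousAt.tendsto.comp (qParam_tendsto_atImInfty one_pos)).congr
    (fun τ ↦ SlashInvariantFormClass.eq_cuspFunction g τ one_mem_strictPeriods_SL one_ne_zero)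

lemma tendsto_E4 : Tendsto (⇑E₄) atImInfty (𝓝 1) := by
  have h := tendsto_levelOne_atImInfty E₄
  rwa [E_qExpansion_coeff_zero (k := 4) (by norm_num) ⟨2, rfl⟩] at h


/-! ### The regular sequence property of `(E₄, E₆)` on `M_*(Γ)` -/

/-- `E₄³ - E₆²` as a function. -/
def Dfun : ℍ → ℂ := ⇑E₄ * ⇑E₄ * ⇑E₄ - ⇑E₆ * ⇑E₆

lemma Dfun_apply (z : ℍ) : Dfun z = E₄ z ^ 3 - E₆ z ^ 2 := by
  simp only [Dfun, Pi.sub_apply, Pi.mul_apply]
  ring

lemma Dfun_ne_zero (z : ℍ) : Dfun z ≠ 0 := by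
  rw [Dfun_apply]
  exact E4_cube_sub_E6_sq_ne_zero z

lemma IsMF.neg {Γ : Subgroup SL(2, ℤ)} {k : ℤ} {f : ℍ → ℂ} (hf : IsMF Γ k f) :
    IsMF Γ k (-f) := by
  have := IsMF.smul (-1 : ℂ) hf
  rwa [neg_one_smul] at this

lemma IsMF.sub {Γ : Subgroup SL(2, ℤ)} {k : ℤ} {f g : ℍ → ℂ} (hf : IsMF Γ k f)
    (hg : IsMF Γ k g) : IsMF Γ k (f - g) := by
  rw [sub_eq_add_neg]
  exact IsMF.add hf (IsMF.neg hg)

lemma isMF_Dfun : IsMF ⊤ 12 Dfun := by
  have h1 : IsMF ⊤ 12 (⇑E₄ * ⇑E₄ * ⇑E₄) := by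
    have := IsMF.mul_top (IsMF.mul_top isMF_E4 isMF_E4) isMF_E4
    exact IsMF.congr_weight this (by norm_num)
  have h2 : IsMF ⊤ 12 (⇑E₆ * ⇑E₆) := by
    have := IsMF.mul_top isMF_E6 isMF_E6
    exact IsMF.congr_weight this (by norm_num)
  exact IsMF.sub h1 h2

theorem regular_E4_E6 {Γ : Subgroup SL(2, ℤ)} {w : ℤ} {x y : ℍ → ℂ}
    (hx : IsMF Γ (w - 4) x) (hy : IsMF Γ (w - 6) y) (h : ⇑E₄ * x = ⇑E₆ * y) :
    ∃ z : ℍ → ℂ, IsMF Γ (w - 10) z ∧ x = ⇑E₆ * z ∧ y = ⇑E₄ * z := by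
  -- the numerator
  have hnum : IsMF Γ (w + 2) (⇑E₄ * ⇑E₄ * y - ⇑E₆ * x) := by
    have h1 : IsMF Γ (w + 2) (⇑E₄ * ⇑E₄ * y) :=
      IsMF.congr_weight (IsMF.mul_top (IsMF.mul_top isMF_E4 isMF_E4) hy) (by ring)
    have h2 : IsMF Γ (w + 2) (⇑E₆ * x) :=
      IsMF.congr_weight (IsMF.mul_top isMF_E6 hx) (by ring)
    exact IsMF.sub h1 h2
  set num : ℍ → ℂ := ⇑E₄ * ⇑E₄ * y - ⇑E₆ * x with hnumdef
  set z : ℍ → ℂ := num / Dfun with hz
  have hpt : ∀ τ, E₄ τ * x τ = E₆ τ * y τ := fun τ => congrFun h τ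
  have hE4z : y = ⇑E₄ * z := by
    ext τ
    have hD := Dfun_ne_zero τ
    simp only [hz, hnumdef, Pi.mul_apply, Pi.div_apply, Pi.sub_apply]
    rw [Dfun_apply] at hD ⊢
    field_simp
    linear_combination (E₆ τ) * hpt τ
  have hE6z : x = ⇑E₆ * z := by
    ext τ
    have hD := Dfun_ne_zero τ
    simp only [hz, hnumdef, Pi.mul_apply, Pi.div_apply, Pi.sub_apply]
    rw [Dfun_apply] at hD ⊢
    field_simp
    linear_combination ((E₄ τ) ^ 2) * hpt τ
  refine ⟨z, ⟨?_, ?_, ?_⟩, hE6z, hE4z⟩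
  · exact hnum.1.div isMF_Dfun.1 Dfun_ne_zero
  · intro γ hγ
    have : (num / Dfun) ∣[(w + 2) - 12] γ = num ∣[w + 2] γ / Dfun ∣[(12 : ℤ)] γ :=
      div_slash_SL2 _ _ _ _ _
    rw [show w - 10 = (w + 2) - 12 by ring, hz, this, hnum.2.1 γ hγ,
      isMF_Dfun.2.1 γ (Subgroup.mem_top γ)]
  · intro g
    -- `E₄ * (z ∣ g) = y ∣ g`
    have h1 : ⇑E₄ * (z ∣[w - 10] g) = y ∣[w - 6] g := by
      have := mul_slash_SL2 4 (w - 10) g ⇑E₄ z
      rw [isMF_E4.2.1 g (Subgroup.mem_top g), ← hE4z] at this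
      rw [← this]
      congr 1
      ring
    have hb := hy.2.2 g
    have hinv : Tendsto (fun τ => (E₄ τ)⁻¹) atImInfty (𝓝 1) := by
      simpa using tendsto_E4.inv₀ one_ne_zero
    have hinvb : IsBoundedAtImInfty (fun τ => (E₄ τ)⁻¹) := hinv.isBigO_one ℝ
    have hprod : IsBoundedAtImInfty ((y ∣[w - 6] g) * fun τ => (E₄ τ)⁻¹) := hb.mul hinvb
    have hne : ∀ᶠ τ in atImInfty, E₄ τ ≠ 0 :=
      tendsto_E4.eventually_ne one_ne_zero
    refine hprod.congr' ?_ Filter.EventuallyEq.rfl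
    filter_upwards [hne] with τ hτ
    have := congrFun h1 τ
    simp only [Pi.mul_apply] at this ⊢
    rw [← this]
    field_simp


/-! ### Structure of level one forms: `A_w = E₄ A_{w-4} + E₆ A_{w-6}` for `w ≠ 0` -/

lemma levelOne_neg {w : ℤ} (hw : w < 0) {a : ℍ → ℂ} (ha : IsMF ⊤ w a) : a = 0 := by
  obtain ⟨g, rfl⟩ := (isMF_top_iff w a).mp ha
  have : g = 0 := rank_zero_iff_forall_zero.mp (levelOne_neg_weight_rank_zero hw) g
  rw [this]
  rfl

lemma levelOne_zero {a : ℍ → ℂ} (ha : IsMF ⊤ 0 a) : ∃ c : ℂ, a = fun _ => c := by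
  obtain ⟨g, rfl⟩ := (isMF_top_iff 0 a).mp ha
  obtain ⟨c, hc⟩ := ModularFormClass.levelOne_weight_zero_const g
  exact ⟨c, hc⟩

/-- For even `k = 2n ≥ 4` there is a level one form with constant term `1` lying in
`E₄ A_{k-4} + E₆ A_{k-6}`. -/
lemma exists_G (n : ℕ) (hn : 2 ≤ n) :
    ∃ G : ModularForm 𝒮ℒ (2 * (n : ℤ)), (qExpansion 1 G).coeff 0 = 1 ∧
      ∃ c₄ c₆ : ℍ → ℂ, IsMF ⊤ (2 * (n : ℤ) - 4) c₄ ∧ IsMF ⊤ (2 * (n : ℤ) - 6) c₆ ∧
        ⇑G = ⇑E₄ * c₄ + ⇑E₆ * c₆ := by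
  induction n using Nat.strong_induction_on with
  | _ n ih =>
    rcases Nat.lt_or_ge n 4 with h4 | h4
    · interval_cases n
      · refine ⟨ModularForm.mcast (by norm_num) E₄,
          E_qExpansion_coeff_zero (k := 4) (by norm_num) ⟨2, rfl⟩, 1, 0,
          IsMF.congr_weight isMF_one (by norm_num), isMF_zero _ _, ?_⟩
        ext z
        simp
      · refine ⟨ModularForm.mcast (by norm_num) E₆,
          E_qExpansion_coeff_zero (k := 6) (by norm_num) ⟨3, rfl⟩, 0, 1,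
          isMF_zero _ _, IsMF.congr_weight isMF_one (by norm_num), ?_⟩
        ext z
        simp
    · obtain ⟨G, hG0, -⟩ := ih (n - 2) (by omega) (by omega)
      have hw : (4 : ℤ) + 2 * ((n - 2 : ℕ) : ℤ) = 2 * (n : ℤ) := by
        push_cast [Nat.cast_sub (show 2 ≤ n by omega)]; ring
      refine ⟨ModularForm.mcast hw (E₄.mul G), ?_, ⇑G, 0,
        IsMF.congr_weight (isMF_coe_levelOne G) (by omega), isMF_zero _ _, ?_⟩
      · have : qExpansion 1 (ModularForm.mcast hw (E₄.mul G)) = qExpansion 1 E₄ * qExpansion 1 G :=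
          ModularForm.qExpansion_mul one_pos one_mem_strictPeriods_SL E₄ G
        rw [this]
        simp only [PowerSeries.coeff_zero_eq_constantCoeff, map_mul] at hG0 ⊢
        rw [hG0, mul_one]
        simpa using E_qExpansion_coeff_zero (k := 4) (by norm_num) ⟨2, rfl⟩
      · ext z
        simp

lemma levelOne_decomp {w : ℤ} (hw : w ≠ 0) {a : ℍ → ℂ} (ha : IsMF ⊤ w a) :
    ∃ b b' : ℍ → ℂ, IsMF ⊤ (w - 4) b ∧ IsMF ⊤ (w - 6) b' ∧ a = ⇑E₄ * b + ⇑E₆ * b' := by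
  have hzero : a = 0 → ∃ b b' : ℍ → ℂ, IsMF ⊤ (w - 4) b ∧ IsMF ⊤ (w - 6) b' ∧
      a = ⇑E₄ * b + ⇑E₆ * b' := by
    rintro rfl
    exact ⟨0, 0, isMF_zero _ _, isMF_zero _ _, by simp⟩
  rcases lt_or_ge w 0 with hneg | hnn
  · exact hzero (levelOne_neg hneg ha)
  obtain ⟨g, rfl⟩ := (isMF_top_iff w a).mp ha
  rcases Int.even_or_odd w with he | ho
  · obtain ⟨j, hj⟩ := he
    lift j to ℕ using (by omega) with n
    have hk2 : w = 2 * (n : ℤ) := by omega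
    rcases Nat.lt_or_ge n 2 with hn | hn
    · interval_cases n
      · omega
      · have hk0 : w = 2 := by omega
        subst hk0
        have : g = 0 := rank_zero_iff_forall_zero.mp levelOne_weight_two_rank_zero g
        exact hzero (by rw [this]; rfl)
    · subst hk2
      obtain ⟨G, hG0, c₄, c₆, hc₄, hc₆, hG⟩ := exists_G n hn
      set c := (qExpansion 1 g).coeff 0 with hc
      set g' : ModularForm 𝒮ℒ (2 * (n : ℤ)) := g - c • G with hg'
      have hcusp : (qExpansion 1 g').coeff 0 = 0 := by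
        rw [hg', FunLike.coe_sub, ModularForm.qExpansion_sub one_pos one_mem_strictPeriods_SL,
          FunLike.coe_smul, ModularForm.qExpansion_smul one_pos one_mem_strictPeriods_SL, map_sub,
          PowerSeries.coeff_smul, hG0, smul_eq_mul, mul_one, sub_self]
      set h := CuspForm.discriminantEquiv (toCuspForm g' hcusp) with hh
      have hhMF : IsMF ⊤ (2 * (n : ℤ) - 12) ⇑h := isMF_coe_levelOne h
      refine ⟨c • c₄ + (1 / 1728 : ℂ) • (⇑E₄ * ⇑E₄ * ⇑h),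
        c • c₆ - (1 / 1728 : ℂ) • (⇑E₆ * ⇑h), ?_, ?_, ?_⟩
      · refine IsMF.add (IsMF.smul c hc₄) (IsMF.smul _ ?_)
        exact IsMF.congr_weight (IsMF.mul_top (IsMF.mul_top isMF_E4 isMF_E4) hhMF) (by ring)
      · refine IsMF.sub (IsMF.smul c hc₆) (IsMF.smul _ ?_)
        exact IsMF.congr_weight (IsMF.mul_top isMF_E6 hhMF) (by ring)
      · ext z
        have h1 := discriminant_mul_discriminantEquiv_apply (toCuspForm g' hcusp) z
        rw [toCuspForm_apply, ← hh, hg', discriminant_eq_E₄_cube_sub_E₆_sq z] at h1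
        have hGz := congrFun hG z
        simp only [sub_apply, smul_apply, smul_eq_mul, Pi.add_apply, Pi.mul_apply,
          Pi.sub_apply, Pi.smul_apply] at h1 hGz ⊢
        rw [hGz] at h1
        linear_combination -h1
  · have : g = 0 := levelOne_odd_weight_eq_zero ho g
    exact hzero (by rw [this]; rfl)


/-! ### Dimension bounds -/

/-- Coercion to functions, as a linear map. -/
def coeLin (Γ : Subgroup (GL (Fin 2) ℝ)) [Γ.HasDetOne] (k : ℤ) :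
    ModularForm Γ k →ₗ[ℂ] (ℍ → ℂ) where
  toFun f := ⇑f
  map_add' _ _ := rfl
  map_smul' _ _ := rfl

lemma coeLin_injective (Γ : Subgroup (GL (Fin 2) ℝ)) [Γ.HasDetOne] (k : ℤ) :
    Function.Injective (coeLin Γ k) := fun _ _ h => DFunLike.coe_injective h

lemma range_coeLin_Gamma0 (N : ℕ) [NeZero N] (k : ℤ) :
    LinearMap.range (coeLin (Gamma0 N : Subgroup (GL (Fin 2) ℝ)) k) = MFsub (Gamma0 N) k := by
  ext f
  rw [mem_MFsub, isMF_iff]
  rfl

lemma range_coeLin_top (k : ℤ) : LinearMap.range (coeLin 𝒮ℒ k) = MFsub ⊤ k := by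
  ext f
  rw [mem_MFsub, isMF_top_iff]
  rfl

/-- The first `B + 1` `q`-expansion coefficients, as a linear map. -/
def qmap (N : ℕ) [NeZero N] (k : ℤ) (B : ℕ) :
    ModularForm (Gamma0 N : Subgroup (GL (Fin 2) ℝ)) k →ₗ[ℂ] (Fin (B + 1) → ℂ) where
  toFun f := fun n => (qExpansion 1 f).coeff (n : ℕ)
  map_add' f g := by
    ext n
    rw [FunLike.coe_add, ModularForm.qExpansion_add one_pos (one_mem_strictPeriods_Gamma0 N),
      map_add]
    rfl
  map_smul' c f := by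
    ext n
    rw [FunLike.coe_smul, ModularForm.qExpansion_smul one_pos (one_mem_strictPeriods_Gamma0 N),
      PowerSeries.coeff_smul]
    rfl

lemma qmap_injective (N : ℕ) [NeZero N] (k : ℤ) :
    Function.Injective (qmap N k ((k * (Gamma0 N).index).toNat / 12)) := by
  rw [← LinearMap.ker_eq_bot, LinearMap.ker_eq_bot']
  intro f hf
  refine ModularForm.sturm_bound_Gamma0 N f fun n hn => ?_
  have := congrFun hf ⟨n, by omega⟩
  exact this

instance finite_modularForm_Gamma0 (N : ℕ) [NeZero N] (k : ℤ) :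
    Module.Finite ℂ (ModularForm (Gamma0 N : Subgroup (GL (Fin 2) ℝ)) k) :=
  Module.Finite.of_injective (qmap N k _) (qmap_injective N k)

lemma finrank_modularForm_Gamma0_le (N : ℕ) [NeZero N] (k : ℤ) :
    Module.finrank ℂ (ModularForm (Gamma0 N : Subgroup (GL (Fin 2) ℝ)) k) ≤
      (k * (Gamma0 N).index).toNat / 12 + 1 := by
  have := LinearMap.finrank_le_finrank_of_injective (qmap_injective N k)
  simpa using this

/-- `MFsub (Gamma0 N) k` is linearly equivalent to the bundled space of modular forms. -/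
def equivMFsub (N : ℕ) [NeZero N] (k : ℤ) :
    ModularForm (Gamma0 N : Subgroup (GL (Fin 2) ℝ)) k ≃ₗ[ℂ] MFsub (Gamma0 N) k :=
  (LinearEquiv.ofInjective _ (coeLin_injective _ k)).trans
    (LinearEquiv.ofEq _ _ (range_coeLin_Gamma0 N k))

lemma finite_MFsub (N : ℕ) [NeZero N] (k : ℤ) : Module.Finite ℂ (MFsub (Gamma0 N) k) :=
  Module.Finite.equiv (equivMFsub N k)

lemma finrank_MFsub_le (N : ℕ) [NeZero N] (w : ℕ) :
    Module.finrank ℂ (MFsub (Gamma0 N) (w : ℤ)) ≤ (Gamma0 N).index * w + 1 := by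
  rw [← (equivMFsub N w).finrank_eq]
  refine (finrank_modularForm_Gamma0_le N w).trans ?_
  have h1 : ((w : ℤ) * ((Gamma0 N).index : ℤ)).toNat = w * (Gamma0 N).index := by
    rw [← Nat.cast_mul, Int.toNat_natCast]
  rw [h1, mul_comm]
  have := Nat.div_le_self ((Gamma0 N).index * w) 12
  omega

lemma isMF_odd (N : ℕ) [NeZero N] (n : ℕ) (hn : Odd n) (f : ℍ → ℂ)
    (hf : IsMF (Gamma0 N) (n : ℤ) f) : f = 0 := by
  obtain ⟨g, rfl⟩ := (isMF_iff N n f).mp hf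
  have hmem : (-1 : GL (Fin 2) ℝ) ∈ (Gamma0 N : Subgroup (GL (Fin 2) ℝ)) := by
    refine ⟨-1, ?_, by ext; simp⟩
    simp [Gamma0_mem]
  have : g = 0 := ModularForm.eq_zero_of_neg_one_mem hmem (by exact_mod_cast hn) g
  rw [this]
  rfl

lemma exists_linearIndependent_levelOne (t : ℕ) (m : ℤ) (hm : Even m) (h12 : 12 * (t : ℤ) ≤ m) :
    ∃ u : Fin t → (ℍ → ℂ), (∀ s, u s ∈ MFsub ⊤ m) ∧ LinearIndependent ℂ u := by
  lift m to ℕ using (by omega) with k
  have hk : Even k := by exact_mod_cast hm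
  have hrank : (t : Cardinal) ≤ Module.rank ℂ (ModularForm 𝒮ℒ (k : ℤ)) := by
    rw [dimension_level_one k hk]
    have ht : t ≤ k / 12 := by omega
    split_ifs
    · exact_mod_cast ht
    · exact_mod_cast ht.trans (Nat.le_succ _)
  obtain ⟨v, hv⟩ := exists_linearIndependent_of_le_rank hrank
  refine ⟨fun s => ⇑(v s), fun s => isMF_coe_levelOne (v s), ?_⟩
  exact hv.map' (coeLin 𝒮ℒ k) (LinearMap.ker_eq_bot.mpr (coeLin_injective _ _))

/-! ### The graded data of `Γ₀(N)` and the main theorem -/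

/-- The graded data attached to `Γ₀(N)`. -/
def grData (N : ℕ) [NeZero N] : GrData ℂ (ℍ → ℂ) where
  A := MFsub ⊤
  M := MFsub (Gamma0 N)
  e4 := ⇑E₄
  e6 := ⇑E₆
  A_neg := fun w hw a ha => levelOne_neg hw ha
  A_zero := fun a ha => by
    obtain ⟨c, rfl⟩ := levelOne_zero ha
    exact ⟨c, rfl⟩
  A_const := fun c => isMF_const c
  A_decomp := fun w hw a ha => by
    obtain ⟨b, b', hb, hb', h⟩ := levelOne_decomp hw ha
    exact ⟨b, hb, b', hb', h⟩
  e4_mem := isMF_E4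
  e6_mem := isMF_E6
  A_mul := fun w k a ha b hb => IsMF.mul_top ha hb
  AM_mul := fun w k a ha f hf => IsMF.mul_top ha hf
  M_neg := fun w hw f hf => isMF_neg N hw hf
  regular := fun w x hx y hy h => by
    obtain ⟨z, hz, h1, h2⟩ := regular_E4_E6 hx hy h
    exact ⟨z, hz, h1, h2⟩
  finite := fun w => finite_MFsub N w

/-- **Package B**: `⨁_w M_w(Γ₀(N))` is a free graded module of finite rank over
`⨁_w M_w(SL(2,ℤ)) = ℂ[E₄, E₆]`, with a homogeneous basis. -/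
theorem exists_homBasis (N : ℕ) [NeZero N] :
    ∃ (ι : Type) (_ : Fintype ι) (k : ι → ℤ) (F : ι → ℍ → ℂ), IsHomBasis N k F := by
  obtain ⟨ι, hι, k, F, hmem, hspan, hindep⟩ :=
    (grData N).exists_finite_homBasis (fun n hn f hf => isMF_odd N n hn f hf)
      (fun t m hm h12 => exists_linearIndependent_levelOne t m hm h12)
      (Gamma0 N).index (fun w => finrank_MFsub_le N w)
  exact ⟨ι, hι, k, F, ⟨hmem, hspan, hindep⟩⟩

end Fermat.Agent.S20.H428
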